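import Fermat.Agent.S15.Core.Top

/-!
# Rows S15 / S12: the node GEO for Galois-STABLE SUBGROUPS, and the dual TOP (helper111)

`Fermat.Agent.S15.Core.GeoStatement p` (row S15, on main) is stated for a Galois-FIXED point `Q`
of order `p`.  Every ingredient of its proof (the moduli place of `(E, ⟨Q⟩)`, Vélu's `j`-invariant,
the value of the modular unit, the reduction of the moduli point at a multiplicative prime)
depends only on the SUBGROUP `⟨Q⟩`.  We therefore state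

* `GeoSubStatement p` : the same node for a point `Q` of order `p` generating a Galois-STABLE
  subgroup (`σ • Q ∈ ⟨Q⟩` for all `σ`);
* `geo_of_geoSub : GeoSubStatement p → GeoStatement p` (so row S15 loses nothing by proving the
  subgroup form);
* `inZero_of_nodes` : the `w_p`-DUAL of `S15.Core.s15_of_nodes`: if `⟨Q⟩` is Galois-stable of order
  `p`, `W` is multiplicative at `2`, `3` with `Q` IN the identity component there, then `Q` is in
  the identity component at every multiplicative prime `ℓ ≡ ±1 mod p`.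

Consequence for row S12 (one-step route, `coord/S12-route-helper111.md`, helper291's
`S12/H291/OneStep.lean`): the node "the cofixed line `N` of the Frey curve is toric at every odd bad
prime" follows from `CuspStatement + GeoSubStatement + DescentStatement` applied to the Frey
curve ITSELF with `Q` a generator of `N`.  No quotient curve `E/N`, no Vélu isogeny, no frozen
S15 applied to `E/N` is needed.

Everything in this file is sorry-free; the nodes are hypotheses.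
-/

set_option autoImplicit false

noncomputable section

open AlgebraicCurve ModularCurve WeierstrassCurve WeierstrassCurve.Affine

namespace Fermat.Agent.S12.H111

open Fermat.Agent.S15.Core

/-- **NODE GEO, subgroup form.**  As `S15.Core.GeoStatement`, but `Q` is only assumed to
generate a Galois-stable subgroup. -/
def GeoSubStatement (p : ℕ) [NeZero p] : Prop :=
  ∀ (W : WeierstrassCurve ℤ), W.Δ ≠ 0 →
  ∀ (Q : ((W.map (Int.castRingHom ℚ))⁄(AlgebraicClosure ℚ)).Point),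
    (∀ σ : AlgebraicClosure ℚ ≃ₐ[ℚ] AlgebraicClosure ℚ, σ • Q ∈ AddSubgroup.zmultiples Q) →
    addOrderOf Q = p →
  ∀ (P₀ : Place (AlgebraicClosure ℚ) (modularFunctionFieldBar p)) (c : JZero p),
    IsCuspZero p P₀ → IsDiffClass P₀ (cuspInfty p) c →
  ∃ D : JZero p, (∀ σ : AlgebraicClosure ℚ ≃ₐ[ℚ] AlgebraicClosure ℚ, σ • D = D) ∧
    ∀ q : ℕ, q.Prime → q ≠ p → (q : ℤ) ∣ W.Δ → ¬ (q : ℤ) ∣ W.c₄ →
    ∀ A : ValuationSubring (AlgebraicClosure ℚ), A.LiesOverPrime q →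
    ∃ (X : Type) (_ : AddCommGroup X) (sp : JZero p →+ X),
      (∀ (m : ℕ) (z : JZero p), ¬ q ∣ m → m • z = 0 → sp z = 0 → z = 0) ∧
      (∀ T ∈ goodHecke p {q}, ∀ z : JZero p, sp z = 0 → sp (T z) = 0) ∧
      (¬ W.InZeroComponentAt A Q → sp D = 0) ∧
      (W.InZeroComponentAt A Q → sp (D + c) = 0)

/-- The subgroup form implies the point form used by `S15.Core.s15_of_nodes`. -/
theorem geo_of_geoSub {p : ℕ} [NeZero p] (h : GeoSubStatement p) : GeoStatement p := by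
  intro W hΔ Q hQfix hQord P₀ c hP₀ hc
  refine h W hΔ Q (fun σ => ?_) hQord P₀ c hP₀ hc
  rw [hQfix σ]
  exact AddSubgroup.mem_zmultiples Q

/-- **Dual TOP.**  From the three nodes (GEO in subgroup form): a point `Q` of order `p`
generating a Galois-stable subgroup, lying IN the identity component at `2` and at `3`
(both multiplicative), lies in the identity component at every multiplicative prime
`ℓ ≠ p` with `ℓ ≡ ±1 mod p`. -/
theorem inZero_of_nodes
    {p : ℕ} (hp : p.Prime) (hp2 : p ≠ 2) (hp3 : p ≠ 3)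
    (hCusp : haveI : NeZero p := ⟨hp.ne_zero⟩; CuspStatement p)
    (hGeo : haveI : NeZero p := ⟨hp.ne_zero⟩; GeoSubStatement p)
    (hDesc : haveI : NeZero p := ⟨hp.ne_zero⟩; DescentStatement p)
    (W : WeierstrassCurve ℤ) (hΔ : W.Δ ≠ 0)
    (Q : ((W.map (Int.castRingHom ℚ))⁄(AlgebraicClosure ℚ)).Point)
    (hQstab : ∀ σ : AlgebraicClosure ℚ ≃ₐ[ℚ] AlgebraicClosure ℚ,
      σ • Q ∈ AddSubgroup.zmultiples Q)
    (hQord : addOrderOf Q = p)
    (h2Δ : (2 : ℤ) ∣ W.Δ) (h2c₄ : ¬ (2 : ℤ) ∣ W.c₄)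
    (h2 : ∀ A : ValuationSubring (AlgebraicClosure ℚ), A.LiesOverPrime 2 →
      W.InZeroComponentAt A Q)
    (h3Δ : (3 : ℤ) ∣ W.Δ) (h3c₄ : ¬ (3 : ℤ) ∣ W.c₄)
    (h3 : ∀ A : ValuationSubring (AlgebraicClosure ℚ), A.LiesOverPrime 3 →
      W.InZeroComponentAt A Q)
    {ℓ : ℕ} (hℓ : ℓ.Prime) (hℓp : ℓ ≠ p) (hℓΔ : (ℓ : ℤ) ∣ W.Δ) (hℓc₄ : ¬ (ℓ : ℤ) ∣ W.c₄)
    (hpm : p ∣ ℓ - 1 ∨ p ∣ ℓ + 1)
    (A : ValuationSubring (AlgebraicClosure ℚ)) (hA : A.LiesOverPrime ℓ) :
    W.InZeroComponentAt A Q := by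
  have : NeZero p := ⟨hp.ne_zero⟩
  by_contra hQ0
  obtain ⟨P₀, c, hP₀, hc, hEis, hord0, hordr⟩ := hCusp
  obtain ⟨D, hDfix, hD⟩ := hGeo W hΔ Q hQstab hQord P₀ c hP₀ hc
  obtain ⟨r, t, e, hr, hrn, ht, hte, hre, htors⟩ := hDesc {2, 3, ℓ}
  obtain ⟨A₂, hA₂⟩ := Fermat.Agent.S54.exists_valuationSubring_liesOver 2 Nat.prime_two
  obtain ⟨A₃, hA₃⟩ := Fermat.Agent.S54.exists_valuationSubring_liesOver 3 Nat.prime_three
  obtain ⟨X₂, _, sp₂, inj₂, hk₂, -, hz₂⟩ :=
    hD 2 Nat.prime_two (Ne.symm hp2) (by exact_mod_cast h2Δ) (by exact_mod_cast h2c₄) A₂ hA₂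
  obtain ⟨X₃, _, sp₃, inj₃, hk₃, -, hz₃⟩ :=
    hD 3 Nat.prime_three (Ne.symm hp3) (by exact_mod_cast h3Δ) (by exact_mod_cast h3c₄) A₃ hA₃
  obtain ⟨Xℓ, _, spℓ, injℓ, hkℓ, hzℓ, -⟩ := hD ℓ hℓ hℓp hℓΔ hℓc₄ A hA
  obtain ⟨m, hm, hmD⟩ := htors D hDfix
  have hS2 : ({2} : Set ℕ) ⊆ (({2, 3, ℓ} : Finset ℕ) : Set ℕ) := by
    intro x hx; simp only [Set.mem_singleton_iff] at hx; simp [hx]
  have hS3 : ({3} : Set ℕ) ⊆ (({2, 3, ℓ} : Finset ℕ) : Set ℕ) := by
    intro x hx; simp only [Set.mem_singleton_iff] at hx; simp [hx]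
  have hSℓ : ({ℓ} : Set ℕ) ⊆ (({2, 3, ℓ} : Finset ℕ) : Set ℕ) := by
    intro x hx; simp only [Set.mem_singleton_iff] at hx; simp [hx]
  have hnc : addOrderOf c • c = 0 := addOrderOf_nsmul_eq_zero c
  -- `t (D + c)` is torsion and specialises to `0` at `2` and `3`, hence vanishes
  have htDc_tors : (m * addOrderOf c) • t (D + c) = 0 := by
    rw [map_add, hte c hEis, nsmul_add]
    have h1 : (m * addOrderOf c) • t D = 0 := by
      rw [mul_nsmul, hmD, nsmul_zero]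
    have h2' : (m * addOrderOf c) • (e • c) = 0 := by
      rw [mul_nsmul', smul_comm (addOrderOf c) e c, hnc, smul_zero, nsmul_zero]
    rw [h1, h2', add_zero]
  have htDc : t (D + c) = 0 :=
    eq_zero_of_torsion_of_two_primes sp₂ sp₃ Nat.prime_two Nat.prime_three (by norm_num)
      inj₂ inj₃ (Nat.mul_pos hm (Nat.pos_of_ne_zero hord0)) htDc_tors
      (sp_eq_zero_of_mem_goodHeckeAlg sp₂ hS2 hk₂ ht (D + c) (hz₂ (h2 A₂ hA₂)))
      (sp_eq_zero_of_mem_goodHeckeAlg sp₃ hS3 hk₃ ht (D + c) (hz₃ (h3 A₃ hA₃)))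
  -- at `ℓ`: `sp (t D) = 0`, and `t D = - e • c`
  have h1 : spℓ (t D) = 0 :=
    sp_eq_zero_of_mem_goodHeckeAlg spℓ hSℓ hkℓ ht D (hzℓ hQ0)
  have htD : t D = - (e • c) := by
    rw [map_add, hte c hEis] at htDc
    exact eq_neg_of_add_eq_zero_left htDc
  rw [htD, map_neg, neg_eq_zero] at h1
  -- the element `y = (ord c / r) • e • c` has order `r`
  set n := eisensteinNumerator p with hn
  have hn0 : 0 < n := by
    have hg : 0 < Nat.gcd (p - 1) 12 := Nat.gcd_pos_of_pos_right _ (by norm_num)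
    have hp1 : 0 < p - 1 := by have := hp.two_le; omega
    exact Nat.div_pos (Nat.le_of_dvd hp1 (Nat.gcd_dvd_left _ _)) hg
  have hrle : r ≤ n := Nat.le_of_dvd hn0 hrn
  obtain ⟨s, hs⟩ := hordr r hr hrn
  have hs0 : s ≠ 0 := by
    rintro rfl
    rw [mul_zero] at hs
    exact hord0 hs
  have hry : r • (s • (e • c)) = 0 := by
    rw [← mul_smul, ← hs, smul_comm, hnc, smul_zero]
  have hy0 : s • (e • c) ≠ 0 := by
    intro h0
    have h' : ((s : ℤ) * e) • c = 0 := by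
      rw [mul_smul, natCast_zsmul]
      exact h0
    have hdvd : (addOrderOf c : ℤ) ∣ (s : ℤ) * e := addOrderOf_dvd_iff_zsmul_eq_zero.mpr h'
    rw [hs] at hdvd
    push_cast at hdvd
    have hdvd' : (r : ℤ) * (s : ℤ) ∣ e * (s : ℤ) := by rwa [mul_comm e]
    exact hre (Int.dvd_of_mul_dvd_mul_right (by exact_mod_cast hs0) hdvd')
  have hspy : spℓ (s • (e • c)) = 0 := by rw [map_nsmul, h1, smul_zero]
  have hℓr : ¬ ℓ ∣ r := by
    intro h
    have hrl : ℓ = r := (Nat.prime_dvd_prime_iff_eq hℓ hr).mp h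
    have hhalf : 2 * n ≤ p - 1 := eisensteinNumerator_le_half hp hp2
    have hp1 := hp.two_le
    have hℓ2 := hℓ.two_le
    rcases hpm with h1' | h1'
    · have : ℓ - 1 = 0 := Nat.eq_zero_of_dvd_of_lt h1' (by omega)
      omega
    · have hle : p ≤ ℓ + 1 := Nat.le_of_dvd (by omega) h1'
      omega
  exact hy0 (injℓ r _ hℓr hry hspy)

end Fermat.Agent.S12.H111
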